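import Fermat.Agent.ArseninKunugui.Requirements

/-!
# The theorem of Saint Raymond

Two analytic sets, the sections of the first being separated from those of the second by
`F_σ` sets, are separated by countably many Borel sets with closed sections.  If they were not,
the requirements which no countable removal can make unsolvable would be extended for ever, and
would yield in one section a closed set of witnesses which the closed sets cannot cover.
-/

set_option autoImplicit false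

universe u v

namespace FA.ArseninKunugui

open Set Topology MeasureTheory PiNat Filter

variable {X : Type u} [TopologicalSpace X] [PolishSpace X] [MeasurableSpace X] [BorelSpace X]
  {Y : Type v} [MetricSpace Y] [CompleteSpace Y] [SecondCountableTopology Y] [MeasurableSpace Y]
  [BorelSpace Y]

variable {φ ψ : (ℕ → ℕ) → X × Y} {D : Set (ℕ → ℕ)}

/-- No removal of the witnesses of one good set makes requirements unsolvable. -/
def IsStable (φ ψ : (ℕ → ℕ) → X × Y) (D : Set (ℕ → ℕ)) : Prop :=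
  ∀ a G, IsGood (range ψ) G → (sols φ ψ D a).Nonempty → (sols φ ψ (D \ φ ⁻¹' G) a).Nonempty

/-- A stable set of witnesses remains after removing countably many good sets. -/
theorem exists_stable (hφ : Continuous φ) :
    ∃ (G : ℕ → Set (X × Y)) (D : Set (ℕ → ℕ)), (∀ n, IsGood (range ψ) (G n)) ∧
      D = (φ ⁻¹' ⋃ n, G n)ᶜ ∧ MeasurableSet D ∧ IsStable φ ψ D := by
  classical
  have : PolishSpace (ℕ → ℕ) := ⟨⟩
  have : PolishSpace (X × Y) := ⟨⟩
  let Kill : List Req → Prop := fun a =>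
    ∃ G : ℕ → Set (X × Y), (∀ n, IsGood (range ψ) (G n)) ∧
      sols φ ψ (φ ⁻¹' ⋃ n, G n)ᶜ a = ∅
  have hempty : IsGood (range ψ) (∅ : Set (X × Y)) :=
    ⟨MeasurableSet.empty, fun x => by simp, by simp⟩
  let Gs : Option ({a // Kill a} × ℕ) → Set (X × Y) := fun o =>
    o.elim ∅ fun p => p.1.2.choose p.2
  have hGs : ∀ o, IsGood (range ψ) (Gs o) := by
    rintro (_ | ⟨a, n⟩)
    exacts [hempty, a.2.choose_spec.1 n]
  obtain ⟨e, he⟩ := exists_surjective_nat (Option ({a // Kill a} × ℕ))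
  refine ⟨fun n => Gs (e n), _, fun n => hGs _, rfl,
    (hφ.measurable (MeasurableSet.iUnion fun n => (hGs _).1)).compl, fun a G hG hne => ?_⟩
  by_contra hno
  have hkill : Kill a := by
    refine ⟨fun n => Nat.casesOn n G fun n => Gs (e n), fun n => ?_, ?_⟩
    · cases n
      exacts [hG, hGs _]
    · refine subset_empty_iff.1 (Subset.trans (sols_mono fun z hz => ?_)
        (not_nonempty_iff_eq_empty.1 hno).subset)
      simp only [mem_compl_iff, mem_preimage, mem_iUnion, not_exists] at hz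
      refine ⟨?_, hz 0⟩
      simp only [mem_compl_iff, mem_preimage, mem_iUnion, not_exists]
      exact fun n => hz (n + 1)
  refine hne.ne_empty (subset_empty_iff.1 ((sols_mono fun z hz => ?_).trans
    hkill.choose_spec.2.subset))
  simp only [mem_compl_iff, mem_preimage, mem_iUnion, not_exists] at hz ⊢
  intro n
  obtain ⟨m, hm⟩ := he (some (⟨a, hkill⟩, n))
  have := hz m
  rw [hm] at this
  exact this

/-- What is to be achieved for a requirement at a given stage. -/
def Served (n : ℕ) (a : List Req) : Req → Prop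
  | .point k _ => ∃ i t s', s'.length = n ∧ Req.point k s' ∈ a ∧ Req.limit i t s' ∈ a
  | .limit i _ s => ∃ t' k, t'.length = n ∧ Req.limit i t' s ∈ a ∧ Req.point k s ∈ a ∧
      Req.near k i n ∈ a
  | .near _ _ _ => True

theorem Served.mono {n : ℕ} {a a' : List Req} (h : a ⊆ a') {r : Req} (hr : Served n a r) :
    Served n a' r := by
  cases r with
  | point k s =>
    obtain ⟨i, t, s', h1, h2, h3⟩ := hr
    exact ⟨i, t, s', h1, h h2, h h3⟩
  | limit i t s =>
    obtain ⟨t', k, h1, h2, h3, h4⟩ := hr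
    exact ⟨t', k, h1, h h2, h h3, h h4⟩
  | near k i m => trivial

/-- Each requirement can be served in a stable set of witnesses. -/
theorem IsStable.exists_serve (hφ : Continuous φ) (hψ : Continuous ψ) (hD : MeasurableSet D)
    (hst : IsStable φ ψ D) (n : ℕ) {a : List Req} (hne : (sols φ ψ D a).Nonempty) {r : Req}
    (hr : r ∈ a) : ∃ a', a ⊆ a' ∧ (sols φ ψ D a').Nonempty ∧ Served n a' r := by
  have : PolishSpace (ℕ → ℕ) := ⟨⟩
  have : PolishSpace (ℕ → ℕ → ℕ) := ⟨⟩
  have : PolishSpace (X × Y) := ⟨⟩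
  obtain ⟨c, hc⟩ := hne
  cases r with
  | near k i m => exact ⟨a, List.Subset.refl a, ⟨c, hc⟩, trivial⟩
  | limit i t s =>
    obtain ⟨ht, hw, hlim⟩ := hc _ hr
    obtain ⟨z, hzD, hzs, hzx, hdist⟩ := hlim n
    obtain ⟨N, hN⟩ := exists_fresh a
    have hiN : i < N := hN _ hr
    let t' := res (c.2.2 i) n
    refine ⟨.limit i t' s :: .point N s :: .near N i n :: a, fun q hq => by simp [hq],
      ⟨(c.1, Function.update c.2.1 N z, c.2.2), ?_⟩, t', N, res_length _ _, by simp, by simp,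
      by simp⟩
    simp only [mem_sols_cons, Meets, Function.update_self]
    refine ⟨⟨by simp [t'], hw, hlim⟩, ⟨hzD, hzs, hzx⟩, hdist, ?_⟩
    exact mem_sols_congr (c := c) hN rfl (fun k hk => Function.update_of_ne hk.ne _ _)
      (fun _ _ => rfl) hc
  | point k s =>
    obtain ⟨hzD, hzs, hzx⟩ := hc _ hr
    let s' := res (c.2.1 k) n
    let a₁ : List Req := .point k s' :: a
    have hc₁ : c ∈ sols φ ψ D a₁ :=
      mem_sols_cons.2 ⟨⟨hzD, by simp [s'], hzx⟩, hc⟩
    obtain ⟨i, hi⟩ := exists_fresh a₁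
    refine ⟨.limit i [] s' :: a₁, fun q hq => by simp [a₁, hq], ?_, i, [], s', res_length _ _,
      by simp [a₁], by simp⟩
    by_contra hno
    -- the piece over the sections of the solutions avoids the second set in closure
    let P : Set (X × Y) := φ '' (D ∩ {z | res z s'.length = s'}) ∩
      Prod.fst ⁻¹' (Prod.fst '' sols φ ψ D a₁)
    have hP : AnalyticSet P := Coanalytic.analyticSet_inter
      (AnalyticSet.image_of_continuous
        (hD.inter (isClosed_res_eq s').measurableSet).analyticSet hφ)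
      (((analyticSet_sols hφ hψ hD a₁).image_of_continuous continuous_fst).preimage continuous_fst)
    obtain ⟨G, hPG, hG⟩ := exists_isGood_superset hP (analyticSet_range_of_polishSpace hψ)
      fun x y hy ⟨w, hw⟩ => hno <| by
        obtain ⟨y', -, ⟨d, hd, hdx⟩⟩ :
            ∃ y', (x, y') ∈ P ∧ x ∈ Prod.fst '' sols φ ψ D a₁ := by
          obtain ⟨y', hy'⟩ := closure_nonempty_iff.1 ⟨y, hy⟩
          exact ⟨y', hy', hy'.2⟩
        refine ⟨(d.1, d.2.1, Function.update d.2.2 i w), mem_sols_cons.2 ⟨?_,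
          mem_sols_congr (c := d) hi rfl (fun _ _ => rfl)
            (fun j hj => Function.update_of_ne hj.ne _ _) hd⟩⟩
        refine ⟨rfl, by simp [hw, hdx], fun m => ?_⟩
        obtain ⟨y', ⟨⟨z, hz, hzy⟩, -⟩, hdist⟩ :=
          Metric.mem_closure_iff.1 hy (1 / (m + 1)) Nat.one_div_pos_of_nat
        refine ⟨z, hz.1, hz.2, by simp [hzy, hdx], ?_⟩
        simpa [hzy, hw, dist_comm] using hdist.le
    obtain ⟨d, hd⟩ := hst a₁ G hG ⟨c, hc₁⟩
    obtain ⟨hdD, hds, hdx⟩ := hd (.point k s') (by simp [a₁])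
    exact hdD.2 (hPG ⟨⟨_, ⟨hdD.1, hds⟩, rfl⟩, ⟨d, sols_mono sdiff_subset hd, hdx.symm⟩⟩)

/-- All requirements of a list can be served at once. -/
theorem IsStable.exists_next (hφ : Continuous φ) (hψ : Continuous ψ) (hD : MeasurableSet D)
    (hst : IsStable φ ψ D) (n : ℕ) {a : List Req} (hne : (sols φ ψ D a).Nonempty) :
    ∃ a', a ⊆ a' ∧ (sols φ ψ D a').Nonempty ∧ ∀ r ∈ a, Served n a' r := by
  suffices ∀ l : List Req, l ⊆ a →
      ∃ a', a ⊆ a' ∧ (sols φ ψ D a').Nonempty ∧ ∀ r ∈ l, Served n a' r from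
    this a (List.Subset.refl a)
  intro l
  induction l with
  | nil => exact fun _ => ⟨a, List.Subset.refl a, hne, by simp⟩
  | cons r l ih =>
    intro hl
    obtain ⟨a₁, h1, h2, h3⟩ := ih fun q hq => hl (List.mem_cons_of_mem _ hq)
    obtain ⟨a₂, h4, h5, h6⟩ := hst.exists_serve hφ hψ hD n h2 (h1 (hl List.mem_cons_self))
    refine ⟨a₂, List.Subset.trans h1 h4, h5, fun q hq => ?_⟩
    rcases List.mem_cons.1 hq with rfl | hq
    exacts [h6, (h3 q hq).mono h4]

/-- The limit of solutions of growing requirements. -/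
theorem IsStable.eq_empty (hφ : Continuous φ) (hψ : Continuous ψ) (hD : MeasurableSet D)
    (hst : IsStable φ ψ D)
    (hsep : ∀ x, ∃ K : ℕ → Set Y, (∀ n, IsClosed (K n)) ∧
      (∀ z, (φ z).1 = x → (φ z).2 ∈ ⋃ n, K n) ∧ ∀ n w, (ψ w).1 = x → (ψ w).2 ∉ K n) :
    D = ∅ := by
  refine eq_empty_iff_forall_notMem.2 fun z₀ hz₀ => ?_
  choose next hsub hnext hserve using fun (n : ℕ) (a : {a // (sols φ ψ D a).Nonempty}) =>
    hst.exists_next hφ hψ hD n a.2
  obtain ⟨A, hA₀, hA⟩ : ∃ A : ℕ → {a // (sols φ ψ D a).Nonempty},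
      Req.point 0 [] ∈ (A 0).1 ∧ ∀ n, (A (n + 1)).1 = next n (A n) :=
    ⟨fun n => Nat.rec ⟨[.point 0 []], ((φ z₀).1, fun _ => z₀, fun _ => z₀),
      mem_sols_cons.2 ⟨⟨hz₀, rfl, rfl⟩, fun r hr => by simp at hr⟩⟩
      (fun n a => ⟨next n a, hnext n a⟩) n, List.mem_cons_self, fun _ => rfl⟩
  have hmono : ∀ m n, m ≤ n → (A m).1 ⊆ (A n).1 := fun m n h => by
    induction h with
    | refl => exact List.Subset.refl _
    | step _ ih =>
      rw [hA]
      exact List.Subset.trans ih (hsub _ _)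
  choose c hc using fun n => (A n).2
  have hpoint : ∀ {k s N m}, Req.point k s ∈ (A N).1 → N ≤ m →
      res ((c m).2.1 k) s.length = s ∧ (φ ((c m).2.1 k)).1 = (c m).1 := fun hr hm =>
    (hc _ _ (hmono _ _ hm hr)).2
  have hlimit : ∀ {i t s N m}, Req.limit i t s ∈ (A N).1 → N ≤ m →
      res ((c m).2.2 i) t.length = t ∧ (ψ ((c m).2.2 i)).1 = (c m).1 := fun hr hm =>
    ⟨(hc _ _ (hmono _ _ hm hr)).1, (hc _ _ (hmono _ _ hm hr)).2.1⟩
  have hserved : ∀ {r N n}, r ∈ (A N).1 → N ≤ n → Served n (A (n + 1)).1 r := fun hr hn => by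
    rw [hA]
    exact hserve _ _ _ (hmono _ _ hn hr)
  -- the witnesses converge
  have hz : ∀ k s N, Req.point k s ∈ (A N).1 →
      ∃ z, Tendsto (fun m => (c m).2.1 k) atTop (𝓝 z) := fun k s N hr => by
    refine ⟨fun j => (c (max N (j + 1) + 1)).2.1 k j, tendsto_pi_nhds.2 fun j => ?_⟩
    refine tendsto_const_nhds.congr' ((eventually_ge_atTop (max N (j + 1) + 1)).mono fun m hm => ?_)
    obtain ⟨i, t, s', hs', hp, -⟩ := hserved hr (le_max_left N (j + 1))
    have h1 := (hpoint hp le_rfl).1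
    have h2 := (hpoint hp hm).1
    rw [hs'] at h1 h2
    exact res_eq_res.1 (h1.trans h2.symm) (lt_of_lt_of_le (Nat.lt_succ_self j) (le_max_right _ _))
  have hw : ∀ i t s N, Req.limit i t s ∈ (A N).1 →
      ∃ w, Tendsto (fun m => (c m).2.2 i) atTop (𝓝 w) := fun i t s N hr => by
    refine ⟨fun j => (c (max N (j + 1) + 1)).2.2 i j, tendsto_pi_nhds.2 fun j => ?_⟩
    refine tendsto_const_nhds.congr' ((eventually_ge_atTop (max N (j + 1) + 1)).mono fun m hm => ?_)
    obtain ⟨t', k, ht', hl, -, -⟩ := hserved hr (le_max_left N (j + 1))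
    have h1 := (hlimit hl le_rfl).1
    have h2 := (hlimit hl hm).1
    rw [ht'] at h1 h2
    exact res_eq_res.1 (h1.trans h2.symm) (lt_of_lt_of_le (Nat.lt_succ_self j) (le_max_right _ _))
  choose Z hZ using hz
  choose W hW using hw
  have h₀ : Req.point 0 [] ∈ (A 0).1 := hA₀
  have hx : Tendsto (fun m => (c m).1) atTop (𝓝 (φ (Z 0 [] 0 h₀)).1) :=
    ((hφ.fst.tendsto _).comp (hZ 0 [] 0 h₀)).congr fun m => (hpoint h₀ (Nat.zero_le m)).2
  let x := (φ (Z 0 [] 0 h₀)).1
  let used : Set (ℕ → ℕ) := {z | ∃ k s N h, z = Z k s N h}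
  have hfst : ∀ z ∈ closure used, (φ z).1 = x :=
    closure_minimal (fun z ⟨k, s, N, h, e⟩ => e ▸ tendsto_nhds_unique
      ((hφ.fst.tendsto _).comp (hZ k s N h)) (hx.congr'
        ((eventually_ge_atTop N).mono fun m hm => (hpoint h hm).2.symm)))
      (isClosed_eq hφ.fst continuous_const)
  -- the closed sets cannot cover
  obtain ⟨K, hK, hcov, hKψ⟩ := hsep x
  have : PolishSpace (ℕ → ℕ) := ⟨⟩
  have : PolishSpace ↥(closure used) := isClosed_closure.polishSpace
  have : Nonempty ↥(closure used) := ⟨⟨_, subset_closure ⟨0, [], 0, h₀, rfl⟩⟩⟩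
  let F : ℕ → Set ↥(closure used) := fun n => {z | (φ z.1).2 ∈ K n}
  obtain ⟨n, hn⟩ := nonempty_interior_of_iUnion_of_closed (f := F)
    (fun n => (hK n).preimage (hφ.snd.comp continuous_subtype_val))
    (eq_univ_of_forall fun z => by
      obtain ⟨n, hn⟩ := mem_iUnion.1 (hcov z.1 (hfst z.1 z.2))
      exact mem_iUnion.2 ⟨n, hn⟩)
  obtain ⟨V, hVo, hV⟩ := isOpen_induced_iff.1 (isOpen_interior : IsOpen (interior (F n)))
  obtain ⟨⟨z, hz⟩, hzi⟩ := hn
  obtain ⟨z', hz'V, k, s, N, hr, rfl⟩ :=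
    mem_closure_iff.1 hz V hVo (show z ∈ V from hV.superset hzi)
  obtain ⟨_, ⟨z₁, l, rfl⟩, hz₁, hlV⟩ := (isTopologicalBasis_cylinders fun _ : ℕ => ℕ)
    |>.exists_subset_of_mem_open hz'V hVo
  rw [← mem_cylinder_iff_eq.1 hz₁, cylinder_eq_res] at hlV
  let m₀ := max N l
  obtain ⟨i, t, s', hs', hp, hl⟩ := hserved hr (le_max_left N l)
  have hres : res (Z k s N hr) s'.length = s' :=
    (isClosed_res_eq s').mem_of_tendsto (hZ k s N hr)
      ((eventually_ge_atTop (m₀ + 1)).mono fun m hm => (hpoint hp hm).1)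
  let w := W i t s' _ hl
  have hwx : (ψ w).1 = x := tendsto_nhds_unique ((hψ.fst.tendsto _).comp (hW i t s' _ hl))
    (hx.congr' ((eventually_ge_atTop (m₀ + 1)).mono fun m hm => (hlimit hl hm).2.symm))
  refine hKψ n w hwx ((hK n).closure_subset (Metric.mem_closure_iff.2 fun ε hε => ?_))
  obtain ⟨M, hM⟩ := exists_nat_one_div_lt hε
  let M₁ := max M (m₀ + 1)
  obtain ⟨t', k', -, -, hk', hnear⟩ := hserved hl (le_max_right M (m₀ + 1))
  have hres' : res (Z k' s' _ hk') s'.length = s' :=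
    (isClosed_res_eq s').mem_of_tendsto (hZ k' s' _ hk')
      ((eventually_ge_atTop (M₁ + 1)).mono fun m hm => (hpoint hk' hm).1)
  have hmem : Z k' s' _ hk' ∈ V := hlV <| by
    rw [mem_ofPred_eq]
    refine res_eq_res.2 fun j hj => res_eq_res.1 (hres'.trans hres.symm) ?_
    rw [hs']
    exact lt_of_lt_of_le hj (le_max_right N l)
  have hd : dist (φ (Z k' s' _ hk')).2 (ψ w).2 ≤ 1 / (M₁ + 1) :=
    le_of_tendsto ((((hφ.snd.tendsto _).comp (hZ k' s' _ hk'))).dist
      ((hψ.snd.tendsto _).comp (hW i t s' _ hl)))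
      ((eventually_ge_atTop (M₁ + 1)).mono fun m hm => hc _ _ (hmono _ _ hm hnear))
  refine ⟨(φ (Z k' s' _ hk')).2, ?_, ?_⟩
  · exact (interior_subset (hV.subset hmem) :
      (⟨_, subset_closure ⟨k', s', _, hk', rfl⟩⟩ : ↥(closure used)) ∈ F n)
  · rw [dist_comm]
    refine hd.trans_lt (lt_of_le_of_lt ?_ hM)
    exact one_div_le_one_div_of_le (by positivity)
      (by exact_mod_cast Nat.succ_le_succ (le_max_left M (m₀ + 1)))

/-- **Saint Raymond.** If the sections of an analytic set are separated from those of another by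
countable unions of closed sets, countably many Borel sets with closed sections cover the first
and avoid the second. -/
theorem exists_closed_section_cover {A B : Set (X × Y)} (hA : AnalyticSet A) (hB : AnalyticSet B)
    (hsep : ∀ x, ∃ K : ℕ → Set Y, (∀ n, IsClosed (K n)) ∧
      (∀ y, (x, y) ∈ A → y ∈ ⋃ n, K n) ∧ ∀ n y, (x, y) ∈ B → y ∉ K n) :
    ∃ G : ℕ → Set (X × Y), (∀ n, IsGood B (G n)) ∧ A ⊆ ⋃ n, G n := by
  rw [AnalyticSet] at hA hB
  rcases hA with rfl | ⟨φ, hφ, rfl⟩
  · exact ⟨fun _ => ∅, fun _ => ⟨MeasurableSet.empty, fun x => by simp, by simp⟩,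
      empty_subset _⟩
  rcases hB with rfl | ⟨ψ, hψ, rfl⟩
  · exact ⟨fun _ => univ, fun _ => ⟨MeasurableSet.univ, fun x => by simp, by simp⟩,
      fun p _ => mem_iUnion.2 ⟨0, mem_univ p⟩⟩
  obtain ⟨G, D, hG, hD, hDm, hst⟩ := exists_stable (ψ := ψ) hφ
  refine ⟨G, hG, ?_⟩
  have h := hst.eq_empty hφ hψ hDm fun x => by
    obtain ⟨K, h1, h2, h3⟩ := hsep x
    exact ⟨K, h1, fun z hz => h2 _ ⟨z, by rw [← hz]⟩, fun n w hw =>
      h3 n _ ⟨w, by rw [← hw]⟩⟩
  rintro p ⟨z, rfl⟩
  by_contra hno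
  exact (h.subset (show z ∈ D from hD ▸ hno)).elim

end FA.ArseninKunugui
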