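import Fermat.Agent.ArseninKunugui.Separation
import Mathlib.Topology.MetricSpace.PiNat
import Mathlib.MeasureTheory.Constructions.BorelSpace.Metric

/-!
# Requirements on finitely many points of one section

A configuration is a point of the first space together with sequences of witnesses for points of
two analytic sets.  A requirement fixes a prefix of a witness, asks a point of the second set to
be in the sectionwise closure of a piece of the first, or asks two of them to be close.
-/

set_option autoImplicit false

universe u v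

namespace FA.ArseninKunugui

open Set Topology MeasureTheory PiNat TopologicalSpace

/-- A requirement. -/
inductive Req
  | point (k : ℕ) (s : List ℕ)
  | limit (i : ℕ) (t s : List ℕ)
  | near (k i m : ℕ)
deriving DecidableEq

instance : Countable Req :=
  Function.Injective.countable
    (f := fun r : Req => (match r with
      | .point k s => .inl (k, s)
      | .limit i t s => .inr (.inl (i, t, s))
      | .near k i m => .inr (.inr (k, i, m)) :
        (ℕ × List ℕ) ⊕ (ℕ × List ℕ × List ℕ) ⊕ (ℕ × ℕ × ℕ)))
    fun r q h => by cases r <;> cases q <;> simp_all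

/-- A bound on the numbers of the witnesses used. -/
def Req.width : Req → ℕ
  | .point k _ => k
  | .limit i _ _ => i
  | .near k i _ => max k i

/-- A common first coordinate and the witnesses. -/
abbrev Config (X : Type u) : Type u :=
  X × (ℕ → ℕ → ℕ) × (ℕ → ℕ → ℕ)

variable {X : Type u} {Y : Type v} [PseudoMetricSpace Y]

/-- The meaning of a requirement, inside a set `D` of witnesses. -/
def Meets (φ ψ : (ℕ → ℕ) → X × Y) (D : Set (ℕ → ℕ)) (c : Config X) : Req → Prop
  | .point k s => c.2.1 k ∈ D ∧ res (c.2.1 k) s.length = s ∧ (φ (c.2.1 k)).1 = c.1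
  | .limit i t s => res (c.2.2 i) t.length = t ∧ (ψ (c.2.2 i)).1 = c.1 ∧
      ∀ m : ℕ, ∃ z ∈ D, res z s.length = s ∧ (φ z).1 = c.1 ∧
        dist (φ z).2 (ψ (c.2.2 i)).2 ≤ 1 / (m + 1)
  | .near k i m => dist (φ (c.2.1 k)).2 (ψ (c.2.2 i)).2 ≤ 1 / (m + 1)

/-- The configurations meeting a list of requirements. -/
def sols (φ ψ : (ℕ → ℕ) → X × Y) (D : Set (ℕ → ℕ)) (a : List Req) : Set (Config X) :=
  {c | ∀ r ∈ a, Meets φ ψ D c r}

variable {φ ψ : (ℕ → ℕ) → X × Y} {D D' : Set (ℕ → ℕ)} {a a' : List Req} {c c' : Config X}

theorem sols_anti (h : a ⊆ a') : sols φ ψ D a' ⊆ sols φ ψ D a :=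
  fun _ hc r hr => hc r (h hr)

theorem sols_mono (h : D' ⊆ D) : sols φ ψ D' a ⊆ sols φ ψ D a := fun c hc r hr => by
  have hr' := hc r hr
  cases r with
  | point k s => exact ⟨h hr'.1, hr'.2⟩
  | limit i t s => exact ⟨hr'.1, hr'.2.1, fun m => (hr'.2.2 m).imp fun z hz => ⟨h hz.1, hz.2⟩⟩
  | near k i m => exact hr'

theorem mem_sols_cons {r : Req} :
    c ∈ sols φ ψ D (r :: a) ↔ Meets φ ψ D c r ∧ c ∈ sols φ ψ D a := by
  simp [sols]

theorem exists_fresh (a : List Req) : ∃ N, ∀ r ∈ a, r.width < N := by
  induction a with
  | nil => exact ⟨0, by simp⟩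
  | cons r a ih =>
    obtain ⟨N, hN⟩ := ih
    refine ⟨max N (r.width + 1), fun q hq => ?_⟩
    rcases List.mem_cons.1 hq with rfl | hq
    · exact lt_max_of_lt_right (Nat.lt_succ_self _)
    · exact lt_max_of_lt_left (hN q hq)

/-- Changing unused witnesses keeps the requirements. -/
theorem mem_sols_congr {N : ℕ} (hN : ∀ r ∈ a, r.width < N) (hx : c'.1 = c.1)
    (hz : ∀ k < N, c'.2.1 k = c.2.1 k) (hw : ∀ i < N, c'.2.2 i = c.2.2 i)
    (hc : c ∈ sols φ ψ D a) : c' ∈ sols φ ψ D a := fun r hr => by
  have hr' := hc r hr
  have hlt := hN r hr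
  cases r with
  | point k s => simpa only [Meets, hx, hz k hlt] using hr'
  | limit i t s => simpa only [Meets, hx, hw i hlt] using hr'
  | near k i m =>
    simpa only [Meets, hz k (lt_of_le_of_lt (le_max_left _ _) hlt),
      hw i (lt_of_le_of_lt (le_max_right _ _) hlt)] using hr'

/-- The witnesses with a given prefix form a closed set. -/
theorem isClosed_res_eq (s : List ℕ) : IsClosed {z : ℕ → ℕ | res z s.length = s} := by
  rcases eq_empty_or_nonempty {z : ℕ → ℕ | res z s.length = s} with h | ⟨z, hz⟩
  · exact h ▸ isClosed_empty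
  · have e : {w : ℕ → ℕ | res w s.length = s} = ⋂ j < s.length, {w | w j = z j} := by
      ext w
      simp only [mem_ofPred_eq, mem_iInter]
      conv_lhs => rhs; rw [← hz.out]
      exact res_eq_res
    rw [e]
    exact isClosed_biInter fun j _ => isClosed_eq (continuous_apply j) continuous_const

/-- The solutions form an analytic set. -/
theorem analyticSet_sols [TopologicalSpace X] [PolishSpace X] [SecondCountableTopology Y]
    (hφ : Continuous φ) (hψ : Continuous ψ) (hD : MeasurableSet D) (a : List Req) :
    AnalyticSet (sols φ ψ D a) := by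
  let _ : MeasurableSpace X := borel X
  have : BorelSpace X := ⟨rfl⟩
  have : PolishSpace (ℕ → ℕ) := ⟨⟩
  have : PolishSpace (ℕ → ℕ → ℕ) := ⟨⟩
  have : PolishSpace ((ℕ → ℕ → ℕ) × (ℕ → ℕ → ℕ)) := ⟨⟩
  have : PolishSpace (Config X) := ⟨⟩
  have : IsCompletelyMetrizableSpace (Config X) := inferInstance
  have : PolishSpace (Config X × (ℕ → ℕ)) := ⟨⟩
  have : BorelSpace (ℕ → ℕ → ℕ) := inferInstance
  have : BorelSpace ((ℕ → ℕ → ℕ) × (ℕ → ℕ → ℕ)) := inferInstance
  have : BorelSpace (Config X) := inferInstance
  have hz : ∀ k, Continuous fun c : Config X => c.2.1 k := fun k =>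
    (continuous_apply k).comp continuous_snd.fst
  have hw : ∀ i, Continuous fun c : Config X => c.2.2 i := fun i =>
    (continuous_apply i).comp continuous_snd.snd
  have key : ∀ r, AnalyticSet {c : Config X | Meets φ ψ D c r} := fun r => by
    cases r with
    | point k s =>
      exact MeasurableSet.analyticSet (((hz k).measurable hD).inter
        ((((isClosed_res_eq s).preimage (hz k)).inter
          (isClosed_eq (hφ.fst.comp (hz k)) continuous_fst)).measurableSet))
    | limit i t s =>
      refine Coanalytic.analyticSet_inter ((isClosed_res_eq t).preimage (hw i)).analyticSet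
        (Coanalytic.analyticSet_inter
          (isClosed_eq (hψ.fst.comp (hw i)) continuous_fst).analyticSet ?_)
      change AnalyticSet {c : Config X | ∀ m : ℕ, ∃ z ∈ D, res z s.length = s ∧ (φ z).1 = c.1 ∧
        dist (φ z).2 (ψ (c.2.2 i)).2 ≤ 1 / (m + 1)}
      simp only [ofPred_forall]
      refine AnalyticSet.iInter fun m => ?_
      convert AnalyticSet.image_of_continuous (MeasurableSet.analyticSet
        (((measurable_snd : Measurable (Prod.snd : Config X × (ℕ → ℕ) → ℕ → ℕ)) hD).inter
          ((((isClosed_res_eq s).preimage continuous_snd).inter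
            ((isClosed_eq (hφ.fst.comp continuous_snd) continuous_fst.fst).inter
              (isClosed_le ((hφ.snd.comp continuous_snd).dist
                (hψ.snd.comp ((hw i).comp continuous_fst)))
                (continuous_const (y := (1 / (m + 1) : ℝ)))))).measurableSet)))
        continuous_fst using 1
      ext c
      simp
    | near k i m =>
      exact (isClosed_le ((hφ.snd.comp (hz k)).dist (hψ.snd.comp (hw i)))
        continuous_const).analyticSet
  induction a with
  | nil =>
    rw [show sols φ ψ D [] = univ from eq_univ_of_forall fun c r hr => by simp at hr]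
    exact MeasurableSet.univ.analyticSet
  | cons r a ih =>
    rw [show sols φ ψ D (r :: a) = {c | Meets φ ψ D c r} ∩ sols φ ψ D a from
      Set.ext fun c => mem_sols_cons]
    exact Coanalytic.analyticSet_inter (key r) ih

end FA.ArseninKunugui
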