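import Fermat.Agent.Coanalytic.Uniformisation

/-!
# Separation by Borel sets with closed sections

Novikov's separation for a countable family of coanalytic sets, its consequence for analytic sets
in a product whose sectionwise closures miss each other, and the projection of Borel sets with
closed sections in a compact space.
-/

set_option autoImplicit false

universe u v

namespace FA.ArseninKunugui

open Set Topology MeasureTheory

variable {X : Type u} {Y : Type v}

/-- **Novikov.** An analytic set inside a countable union of coanalytic sets is covered by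
Borel subsets of them. -/
theorem exists_borel_cover [TopologicalSpace X] [PolishSpace X] [MeasurableSpace X] [BorelSpace X]
    {B : Set X} (hB : AnalyticSet B) {Q : ℕ → Set X} (hQ : ∀ n, AnalyticSet (Q n)ᶜ)
    (hBQ : B ⊆ ⋃ n, Q n) :
    ∃ P : ℕ → Set X, (∀ n, MeasurableSet (P n)) ∧ (∀ n, P n ⊆ Q n) ∧ B ⊆ ⋃ n, P n := by
  have : PolishSpace (X × ℕ) := ⟨⟩
  obtain ⟨Q', hsub, hQ', huniq, hproj⟩ :=
    Coanalytic.exists_uniformisation (P := {p : X × ℕ | p.1 ∈ Q p.2}) (by
      convert AnalyticSet.iUnion fun n : ℕ =>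
        Coanalytic.analyticSet_inter ((hQ n).preimage continuous_fst)
          (isClosed_eq (continuous_snd : Continuous (Prod.snd : X × ℕ → ℕ))
            (continuous_const (y := n))).analyticSet using 1
      ext p
      simp)
  let R : ℕ → Set X := fun n => {x | (x, n) ∈ Q'}
  have hR : ∀ n, AnalyticSet (R n)ᶜ := fun n =>
    hQ'.preimage (continuous_id.prodMk continuous_const)
  -- the part of `B` given to one index is analytic
  let A : ℕ → Set X := fun n => B ∩ ⋂ m, ((R m)ᶜ ∪ {_x | m = n})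
  have hA : ∀ n, AnalyticSet (A n) := fun n => by
    refine Coanalytic.analyticSet_inter hB (AnalyticSet.iInter fun m => ?_)
    refine Coanalytic.analyticSet_union (hR m) (IsClosed.analyticSet ?_)
    by_cases h : m = n <;> simp [h]
  have hcov : ∀ x ∈ B, ∃ n, x ∈ R n ∧ x ∈ A n := fun x hx => by
    obtain ⟨n, hn⟩ := mem_iUnion.1 (hBQ hx)
    obtain ⟨⟨x', m⟩, hm, hxm⟩ := hproj.symm.subset (⟨(x, n), hn, rfl⟩ : x ∈ Prod.fst '' _)
    obtain rfl : x' = x := hxm
    refine ⟨m, hm, hx, mem_iInter.2 fun k => ?_⟩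
    exact or_iff_not_imp_left.2 fun hk => huniq _ _ _ (not_not.1 hk) hm
  have hAR : ∀ n, A n ⊆ R n := fun n x hx => by
    obtain ⟨m, hm, -⟩ := hcov x hx.1
    rcases mem_iInter.1 hx.2 m with h | h
    · exact absurd hm h
    · exact (show m = n from h) ▸ hm
  choose P hPA hPR hP using fun n =>
    (hA n).measurablySeparable (hR n) (disjoint_compl_right_iff_subset.2 (hAR n))
  refine ⟨P, hP, fun n x hx => hsub (a := (x, n)) (not_not.1 fun h =>
    Set.disjoint_left.1 (hPR n) h hx), fun x hx => ?_⟩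
  obtain ⟨n, -, hn⟩ := hcov x hx
  exact mem_iUnion.2 ⟨n, hPA n hn⟩

/-- A countable basis indexed by the natural numbers. -/
theorem exists_nat_basis (Y : Type v) [TopologicalSpace Y] [SecondCountableTopology Y] :
    ∃ U : ℕ → Set Y, (∀ n, IsOpen (U n)) ∧
      ∀ y, ∀ V, IsOpen V → y ∈ V → ∃ n, y ∈ U n ∧ U n ⊆ V := by
  obtain ⟨U, hU⟩ := ((TopologicalSpace.countable_countableBasis Y).insert ∅).exists_eq_range
    (insert_nonempty _ _)
  have hmem : ∀ n, U n ∈ insert ∅ (TopologicalSpace.countableBasis Y) := fun n =>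
    hU ▸ mem_range_self n
  refine ⟨U, fun n => ?_, fun y V hV hy => ?_⟩
  · rcases hmem n with h | h
    · exact h ▸ isOpen_empty
    · exact (TopologicalSpace.isBasis_countableBasis Y).isOpen h
  · obtain ⟨W, hW, hyW, hWV⟩ :=
      (TopologicalSpace.isBasis_countableBasis Y).exists_subset_of_mem_open hy hV
    obtain ⟨n, rfl⟩ := hU.subset (mem_insert_of_mem _ hW)
    exact ⟨n, hyW, hWV⟩

variable [TopologicalSpace X] [PolishSpace X] [MeasurableSpace X] [BorelSpace X]
  [TopologicalSpace Y] [PolishSpace Y] [MeasurableSpace Y] [BorelSpace Y]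

/-- An analytic set disjoint from the sectionwise closure of another one is covered by countably
many Borel rectangles with basic open sides, disjoint from the other one. -/
theorem exists_rectangles {U : ℕ → Set Y} (hUo : ∀ n, IsOpen (U n))
    (hUb : ∀ y, ∀ V, IsOpen V → y ∈ V → ∃ n, y ∈ U n ∧ U n ⊆ V) {P B : Set (X × Y)}
    (hP : AnalyticSet P) (hB : AnalyticSet B)
    (h : ∀ x y, y ∈ closure {y' | (x, y') ∈ P} → (x, y) ∉ B) :
    ∃ E : ℕ → Set X, (∀ n, MeasurableSet (E n)) ∧
      Disjoint P (⋃ n, E n ×ˢ U n) ∧ B ⊆ ⋃ n, E n ×ˢ U n := by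
  have : PolishSpace (X × Y) := ⟨⟩
  let hit : ℕ → Set X := fun n => Prod.fst '' (P ∩ Prod.snd ⁻¹' U n)
  have hhit : ∀ n, AnalyticSet (hit n) := fun n =>
    (Coanalytic.analyticSet_inter hP
      ((hUo n).preimage continuous_snd).measurableSet.analyticSet).image_of_continuous
      continuous_fst
  have hQ : ∀ n, AnalyticSet ((hit n)ᶜ ×ˢ U n)ᶜ := fun n => by
    rw [compl_prod_eq_union, compl_compl]
    exact Coanalytic.analyticSet_union
      (by simpa [prod_univ] using
        (hhit n).preimage (continuous_fst : Continuous (Prod.fst : X × Y → X)))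
      (by simpa [univ_prod] using ((hUo n).isClosed_compl.preimage continuous_snd).analyticSet)
  obtain ⟨R, hR, hRQ, hBR⟩ := exists_borel_cover hB hQ fun p hp => by
    have hp' : p.2 ∉ closure {y' | (p.1, y') ∈ P} := fun hc => h _ _ hc hp
    obtain ⟨n, hn, hnV⟩ := hUb _ _ isClosed_closure.isOpen_compl hp'
    refine mem_iUnion.2 ⟨n, fun ⟨q, ⟨hq, hqU⟩, hqp⟩ => hnV hqU (subset_closure ?_), hn⟩
    exact show (p.1, q.2) ∈ P from hqp ▸ hq
  choose E hEA hEQ hE using fun n =>
    (AnalyticSet.image_of_continuous (hR n).analyticSet continuous_fst).measurablySeparable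
      (hhit n) (Set.disjoint_left.2 fun x ⟨p, hp, hpx⟩ hx => (hRQ n hp).1 (hpx ▸ hx))
  refine ⟨E, hE, Set.disjoint_left.2 fun p hp hpE => ?_, fun p hp => ?_⟩
  · obtain ⟨n, hn⟩ := mem_iUnion.1 hpE
    exact Set.disjoint_left.1 (hEQ n) ⟨p, ⟨hp, hn.2⟩, rfl⟩ hn.1
  · obtain ⟨n, hn⟩ := mem_iUnion.1 (hBR hp)
    exact mem_iUnion.2 ⟨n, hEA n ⟨p, hn, rfl⟩, (hRQ n hn).2⟩

/-- A Borel set with closed sections, disjoint from a given set. -/
def IsGood (B G : Set (X × Y)) : Prop :=
  MeasurableSet G ∧ (∀ x, IsClosed {y | (x, y) ∈ G}) ∧ Disjoint G B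

/-- **Separation by a Borel set with closed sections.** -/
theorem exists_isGood_superset {P B : Set (X × Y)} (hP : AnalyticSet P) (hB : AnalyticSet B)
    (h : ∀ x y, y ∈ closure {y' | (x, y') ∈ P} → (x, y) ∉ B) :
    ∃ G, P ⊆ G ∧ IsGood B G := by
  obtain ⟨U, hUo, hUb⟩ := exists_nat_basis Y
  obtain ⟨E, hE, hPE, hBE⟩ := exists_rectangles hUo hUb hP hB h
  refine ⟨(⋃ n, E n ×ˢ U n)ᶜ, hPE.subset_compl_right,
    (MeasurableSet.iUnion fun n => (hE n).prod (hUo n).measurableSet).compl, fun x => ?_,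
    Set.disjoint_left.2 fun p hp hpB => hp (hBE hpB)⟩
  refine isOpen_compl_iff.1 ?_
  simp only [mem_compl_iff, compl_ofPred, not_not]
  rw [show {y | (x, y) ∈ ⋃ n, E n ×ˢ U n} = ⋃ n ∈ {n | x ∈ E n}, U n by ext y; simp]
  exact isOpen_biUnion fun n _ => hUo n

/-- **Novikov.** In a compact space, a Borel set with closed sections has a Borel projection. -/
theorem measurableSet_image_fst_of_isClosed [CompactSpace Y] {B : Set (X × Y)}
    (hB : MeasurableSet B) (hc : ∀ x, IsClosed {y | (x, y) ∈ B}) :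
    MeasurableSet (Prod.fst '' B) := by
  have : PolishSpace (X × Y) := ⟨⟩
  obtain ⟨U, hUo, hUb⟩ := exists_nat_basis Y
  obtain ⟨E, hE, hBE, hcE⟩ := exists_rectangles hUo hUb hB.analyticSet hB.compl.analyticSet
    fun x y hy hyB => hyB ((hc x).closure_eq.subset hy)
  rw [show Prod.fst '' B =
    (⋃ s : {s : Finset ℕ // univ ⊆ ⋃ n ∈ s, U n}, ⋂ n ∈ s.1, E n)ᶜ from ?_]
  · exact (MeasurableSet.iUnion fun s => Finset.measurableSet_biInter _ fun n _ => hE n).compl
  ext x
  simp only [mem_compl_iff, mem_iUnion, mem_iInter, not_exists]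
  constructor
  · rintro ⟨p, hp, rfl⟩ s hs
    obtain ⟨n, hn, hpn⟩ := mem_iUnion₂.1 (s.2 (mem_univ p.2))
    exact Set.disjoint_left.1 hBE hp (mem_iUnion.2 ⟨n, hs n hn, hpn⟩)
  · intro h
    by_contra hx
    classical
    obtain ⟨t, ht⟩ := isCompact_univ.elim_finite_subcover (fun n : {n // x ∈ E n} => U n)
      (fun n => hUo _) fun y _ => by
        obtain ⟨n, hn⟩ := mem_iUnion.1 (hcE fun hy : (x, y) ∈ B => hx ⟨_, hy, rfl⟩)
        exact mem_iUnion.2 ⟨⟨n, hn.1⟩, hn.2⟩
    refine h ⟨t.image Subtype.val, fun y hy => ?_⟩ fun n hn => ?_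
    · simpa using ht hy
    · obtain ⟨m, -, rfl⟩ := Finset.mem_image.1 hn
      exact m.2

end FA.ArseninKunugui
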