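import Fermat.Agent.ArseninKunugui.Covering
import Fermat.Agent.Selection.Selectors
import Mathlib.Topology.MetricSpace.PiNat

/-!
# Borel sets with sigma-compact sections

They are countable unions of Borel sets with compact sections; consequently their projections
are Borel and they contain Borel graphs over their projections.
-/

set_option autoImplicit false

universe u v

namespace FA.ArseninKunugui

open Set Topology MeasureTheory Filter

variable {X : Type u} [TopologicalSpace X] [PolishSpace X] [MeasurableSpace X] [BorelSpace X]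
  {Y : Type v} [TopologicalSpace Y] [PolishSpace Y] [MeasurableSpace Y] [BorelSpace Y]

/-- The case of a compact space: closed sections. -/
theorem exists_closed_cover_of_compactSpace [CompactSpace Y] {B : Set (X × Y)}
    (hB : MeasurableSet B) (h : ∀ x, IsSigmaCompact {y | (x, y) ∈ B}) :
    ∃ G : ℕ → Set (X × Y), (∀ n, MeasurableSet (G n)) ∧ (∀ n x, IsClosed {y | (x, y) ∈ G n}) ∧
      ⋃ n, G n = B := by
  let := TopologicalSpace.upgradeIsCompletelyMetrizable Y
  have : PolishSpace (X × Y) := ⟨⟩
  obtain ⟨G, hG, hBG⟩ := exists_closed_section_cover hB.analyticSet hB.compl.analyticSet fun x => by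
    obtain ⟨K, hKc, hK⟩ := h x
    exact ⟨K, fun n => (hKc n).isClosed, fun y hy => hK.symm.subset hy,
      fun n y hy hyK => hy (hK.subset (mem_iUnion.2 ⟨n, hyK⟩))⟩
  exact ⟨G, fun n => (hG n).1, fun n => (hG n).2.1, Subset.antisymm
    (iUnion_subset fun n p hp => not_not.1 fun hpB => Set.disjoint_left.1 (hG n).2.2 hp hpB) hBG⟩

/-- An embedding into a compact space carries the product along. -/
theorem exists_compactification (Y : Type v) [TopologicalSpace Y] [PolishSpace Y] :
    ∃ e : Y → ℕ → unitInterval, IsEmbedding e := by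
  let := TopologicalSpace.upgradeIsCompletelyMetrizable Y
  rcases isEmpty_or_nonempty Y with hY | hY
  · exact ⟨isEmptyElim, .of_subsingleton _⟩
  exact Metric.PiNatEmbed.exists_embedding_to_hilbert_cube

omit [MeasurableSpace X] [BorelSpace X] [MeasurableSpace Y] [BorelSpace Y] [PolishSpace X]
  [TopologicalSpace X] [PolishSpace Y] [TopologicalSpace Y] in
theorem section_image {Z : Type*} {e : Y → Z} {B : Set (X × Y)} (x : X) :
    {z | (x, z) ∈ Prod.map id e '' B} = e '' {y | (x, y) ∈ B} := by
  ext z
  simp [Prod.exists]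

/-- **Saint Raymond and Arsenin.** A Borel set with sigma-compact sections is a countable union
of Borel sets with compact sections. -/
theorem exists_compact_section_cover {B : Set (X × Y)} (hB : MeasurableSet B)
    (h : ∀ x, IsSigmaCompact {y | (x, y) ∈ B}) :
    ∃ G : ℕ → Set (X × Y), (∀ n, MeasurableSet (G n)) ∧ (∀ n x, IsCompact {y | (x, y) ∈ G n}) ∧
      ⋃ n, G n = B := by
  obtain ⟨e, he⟩ := exists_compactification Y
  have : PolishSpace (ℕ → unitInterval) := ⟨⟩
  have : PolishSpace (X × Y) := ⟨⟩
  have hE : MeasurableEmbedding (Prod.map id e : X × Y → X × (ℕ → unitInterval)) :=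
    (continuous_id.prodMap he.continuous).measurableEmbedding
      (Function.injective_id.prodMap he.injective)
  obtain ⟨G, hGm, hGc, hG⟩ := exists_closed_cover_of_compactSpace
    (hE.measurableSet_image.2 hB) fun x => by
      rw [section_image]
      exact (h x).image he.continuous
  refine ⟨fun n => Prod.map id e ⁻¹' G n, fun n => hE.measurable (hGm n), fun n x => ?_, ?_⟩
  · rw [he.isCompact_iff]
    convert (hGc n x).isCompact using 1
    refine Subset.antisymm (fun z ⟨y, hy, hz⟩ => hz ▸ hy) fun z hz => ?_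
    have hzB : (x, z) ∈ Prod.map id e '' B := hG.subset (mem_iUnion.2 ⟨n, hz⟩)
    obtain ⟨⟨x', y⟩, -, hp⟩ := hzB
    obtain ⟨rfl, rfl⟩ := Prod.mk.inj hp
    exact ⟨y, hz, rfl⟩
  · rw [← preimage_iUnion, hG, hE.injective.preimage_image]

/-- A Borel set with compact sections has a Borel projection. -/
theorem measurableSet_image_fst_of_isCompact {G : Set (X × Y)} (hG : MeasurableSet G)
    (h : ∀ x, IsCompact {y | (x, y) ∈ G}) : MeasurableSet (Prod.fst '' G) := by
  obtain ⟨e, he⟩ := exists_compactification Y
  have : PolishSpace (ℕ → unitInterval) := ⟨⟩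
  have : PolishSpace (X × Y) := ⟨⟩
  have hE : MeasurableEmbedding (Prod.map id e : X × Y → X × (ℕ → unitInterval)) :=
    (continuous_id.prodMap he.continuous).measurableEmbedding
      (Function.injective_id.prodMap he.injective)
  have := measurableSet_image_fst_of_isClosed (hE.measurableSet_image.2 hG) fun x => by
    rw [section_image]
    exact ((h x).image he.continuous).isClosed
  rwa [← image_comp, show Prod.fst ∘ Prod.map id e = (Prod.fst : X × Y → X) from rfl] at this

/-- The sections of a Borel set with compact sections meet each open set in a Borel set. -/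
theorem measurableSet_meets {G : Set (X × Y)} (hG : MeasurableSet G)
    (h : ∀ x, IsCompact {y | (x, y) ∈ G}) {U : Set Y} (hU : IsOpen U) :
    MeasurableSet {x | ({y | (x, y) ∈ G} ∩ U).Nonempty} := by
  let := TopologicalSpace.upgradeIsCompletelyMetrizable Y
  obtain ⟨F, hF, -, hFU, -⟩ := hU.exists_iUnion_isClosed
  rw [show {x | ({y | (x, y) ∈ G} ∩ U).Nonempty} =
      ⋃ n, Prod.fst '' (G ∩ Prod.snd ⁻¹' F n) from ?_]
  · exact MeasurableSet.iUnion fun n => measurableSet_image_fst_of_isCompact
      (hG.inter (measurable_snd (hF n).measurableSet)) fun x => (h x).inter_right (hF n)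
  ext x
  simp only [mem_ofPred_eq, mem_iUnion]
  constructor
  · rintro ⟨y, hy, hyU⟩
    obtain ⟨n, hn⟩ := mem_iUnion.1 (hFU.symm.subset hyU)
    exact ⟨n, (x, y), ⟨hy, hn⟩, rfl⟩
  · rintro ⟨n, ⟨x', y⟩, ⟨hy, hn⟩, rfl⟩
    exact ⟨y, hy, hFU.subset (mem_iUnion.2 ⟨n, hn⟩)⟩

/-- **Arsenin and Kunugui.** The projection of a Borel set with sigma-compact sections is
Borel. -/
theorem measurableSet_image_fst {B : Set (X × Y)} (hB : MeasurableSet B)
    (h : ∀ x, IsSigmaCompact {y | (x, y) ∈ B}) : MeasurableSet (Prod.fst '' B) := by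
  obtain ⟨G, hGm, hGc, rfl⟩ := exists_compact_section_cover hB h
  rw [image_iUnion]
  exact MeasurableSet.iUnion fun n => measurableSet_image_fst_of_isCompact (hGm n) (hGc n)

/-- A Borel set with compact sections has a Borel selector. -/
theorem exists_selector_of_isCompact [Nonempty Y] {G : Set (X × Y)} (hG : MeasurableSet G)
    (h : ∀ x, IsCompact {y | (x, y) ∈ G}) :
    ∃ f : X → Y, Measurable f ∧ ∀ x ∈ Prod.fst '' G, (x, f x) ∈ G := by
  classical
  let F : X → Set Y := fun x => if x ∈ Prod.fst '' G then {y | (x, y) ∈ G} else univ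
  obtain ⟨f, hf, hfF⟩ := Selection.exists_measurable_selector (F := F)
    (fun x => by
      by_cases hx : x ∈ Prod.fst '' G <;> simp only [F, hx, if_true, if_false]
      exacts [(h x).isClosed, isClosed_univ])
    (fun x => by
      by_cases hx : x ∈ Prod.fst '' G <;> simp only [F, hx, if_true, if_false]
      · obtain ⟨⟨x', y⟩, hy, rfl⟩ := hx
        exact ⟨y, hy⟩
      · exact univ_nonempty)
    fun U hU => by
      convert (measurableSet_meets hG h hU).union
        ((measurableSet_image_fst_of_isCompact hG h).compl.inter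
          (MeasurableSet.const U.Nonempty)) using 1
      ext x
      by_cases hx : x ∈ Prod.fst '' G
      · simp only [F, hx, if_true, mem_ofPred_eq, mem_union, mem_inter_iff, mem_compl_iff,
          not_true, false_and, or_false]
      · have : ¬({y | (x, y) ∈ G} ∩ U).Nonempty := fun ⟨y, hy, _⟩ => hx ⟨(x, y), hy, rfl⟩
        simp only [F, hx, if_false, univ_inter, mem_ofPred_eq, mem_union, mem_inter_iff,
          mem_compl_iff, not_false_eq_true, true_and, this, false_or]
  refine ⟨f, hf, fun x hx => ?_⟩
  have := hfF x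
  simpa only [F, hx, if_true, mem_ofPred_eq] using this

/-- **A Borel selection.** -/
theorem exists_selector [Nonempty Y] {B : Set (X × Y)} (hB : MeasurableSet B)
    (h : ∀ x, IsSigmaCompact {y | (x, y) ∈ B}) :
    ∃ f : X → Y, Measurable f ∧ ∀ x ∈ Prod.fst '' B, (x, f x) ∈ B := by
  classical
  have hD := measurableSet_image_fst hB h
  obtain ⟨G, hGm, hGc, rfl⟩ := exists_compact_section_cover hB h
  choose f hf hfG using fun n => exists_selector_of_isCompact (hGm n) (hGc n)
  have hex : ∀ x, ∃ n, x ∈ Prod.fst '' G n ∨ x ∉ Prod.fst '' ⋃ m, G m := fun x => by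
    by_cases hx : x ∈ Prod.fst '' ⋃ m, G m
    · obtain ⟨p, hp, rfl⟩ := hx
      obtain ⟨n, hn⟩ := mem_iUnion.1 hp
      exact ⟨n, .inl ⟨p, hn, rfl⟩⟩
    · exact ⟨0, .inr hx⟩
  refine ⟨fun x => f (Nat.find (hex x)) x, ?_, fun x hx => ?_⟩
  · exact (measurable_from_prod_countable_left (f := fun p : X × ℕ => f p.2 p.1) hf).comp
      (measurable_id.prodMk (measurable_find hex fun n =>
        (measurableSet_image_fst_of_isCompact (hGm n) (hGc n)).union hD.compl))
  · rcases Nat.find_spec (hex x) with hn | hn
    · exact mem_iUnion.2 ⟨_, hfG _ x hn⟩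
    · exact absurd hx hn

/-- **Arsenin and Kunugui.** A Borel set with sigma-compact sections contains a Borel graph over
its projection. -/
theorem exists_borel_graph {B : Set (X × Y)} (hB : MeasurableSet B)
    (h : ∀ x, IsSigmaCompact {y | (x, y) ∈ B}) :
    ∃ S ⊆ B, MeasurableSet S ∧ InjOn Prod.fst S ∧ Prod.fst '' S = Prod.fst '' B := by
  rcases isEmpty_or_nonempty Y with hY | hY
  · exact ⟨B, Subset.rfl, hB, fun p => isEmptyElim p.2, rfl⟩
  obtain ⟨f, hf, hfB⟩ := exists_selector hB h
  have hg : Measurable fun x : X => (x, f x) := measurable_id.prodMk hf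
  refine ⟨{p | p.1 ∈ Prod.fst '' B ∧ f p.1 = p.2}, fun p hp => ?_,
    (measurable_fst (measurableSet_image_fst hB h)).inter
      (measurableSet_eq_fun (hf.comp measurable_fst) measurable_snd),
    fun p hp q hq he => Prod.ext he (hp.2.symm.trans ((congrArg f he).trans hq.2)), ?_⟩
  · exact (show (p.1, p.2) ∈ B from hp.2 ▸ hfB _ hp.1)
  · refine Subset.antisymm (fun x ⟨p, hp, hx⟩ => hx ▸ hp.1) fun x hx => ?_
    exact ⟨(x, f x), ⟨hx, rfl⟩, rfl⟩

end FA.ArseninKunugui
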